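/-
S33, block "Depth" (owner helper93): generic depth of `p`-torsion classes at the residue
characteristic `p` and its behaviour under the multiplicative Hecke operator `T_p`.

Built on `Fermat.Agent.S33.Cech.Data` (helper73): `F` = function field of `X₀(M')` over a number
field `K'`, `O` = the Gauss valuation ring (ONE vertical valuation here), `A` = constants in `O`,
`p = η π ^ e`.  New data: the field of constants `Kc` and the reduction of `q`-expansions
`res : O → k((q))`.

* `Rel u u'`      : `u' = c g ^ p u` (same class in `F^× / (Kc^× F^×p)`);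
* `HasDepth u m`  : the class of `u` has a representative `≡ 1 mod π ^ m`;
* `Op T`          : `T` behaves like `T_p`:  `T (1 + π ^ m h) = 1 + π ^ m h'`, `h'(q) ≡ h(q ^ p)`.
-/
import Fermat.Agent.S33.Cech.Imp
import Fermat.Prelude.Def_ModularCurve_X0

set_option autoImplicit false

namespace Fermat.Agent.S33.Depth

open Fermat.Agent.S33.Cech ModularCurve

variable {p : ℕ} {F : Type*} [Field F]

/-- One vertical valuation, with reduction of `q`-expansions. -/
structure Gen (D : Data p F) (k : Type*) [Field k] where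
  /-- the field of constants -/
  Kc : Subfield F
  mem_A : ∀ x : F, x ∈ D.A ↔ x ∈ Kc ∧ x ∈ D.O
  /-- `O` is a discrete valuation ring with uniformiser `π` -/
  val : ∀ x : F, x ≠ 0 → ∃ (n : ℤ) (y : F), y ∈ D.O ∧ y⁻¹ ∈ D.O ∧ x = D.π ^ n * y
  /-- reduction of `q`-expansions -/
  res : D.O →+* LaurentSeries k
  res_eq_zero : ∀ z : D.O, res z = 0 ↔ D.Dvd 1 (z : F)
  res_A : ∀ z : D.O, (z : F) ∈ D.A → ∃ c : k, res z = HahnSeries.C c
  res_const : ∀ z : D.O, (∃ c : k, res z = HahnSeries.C c) → ∃ c ∈ D.A, D.Dvd 1 ((z : F) - c)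

variable {D : Data p F} {k : Type*} [Field k]

/-- `u` and `u'` have the same class modulo constants and `p`-th powers. -/
def Gen.Rel (G : Gen D k) (u u' : F) : Prop :=
  ∃ c ∈ G.Kc, ∃ g : F, c ≠ 0 ∧ g ≠ 0 ∧ u' = c * g ^ p * u

/-- The class of `u` has a representative `≡ 1 mod π ^ m`. -/
def Gen.HasDepth (G : Gen D k) (u : F) (m : ℕ) : Prop :=
  ∃ u' : F, G.Rel u u' ∧ D.Dvd m (u' - 1)

/-- `T` behaves like the multiplicative Hecke operator `T_p` (formula `(*)`). -/
structure Gen.Op (G : Gen D k) [NeZero p] (T : F →* F) : Prop where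
  const : ∀ c ∈ G.Kc, T c ∈ G.Kc
  star : ∀ m : ℕ, 1 ≤ m → ∀ h : D.O, ∃ h' : D.O,
    T (1 + D.π ^ m * (h : F)) = 1 + D.π ^ m * (h' : F) ∧ G.res h' = qExpand k p (G.res h)

/-- `U` behaves like the multiplicative operator `U_p` at the cusp `∞` (formula `(**)`): it
improves every congruence `≡ 1`. -/
structure Gen.OpU (G : Gen D k) (U : F →* F) : Prop where
  const : ∀ c ∈ G.Kc, U c ∈ G.Kc
  star : ∀ m : ℕ, 1 ≤ m → ∀ h : D.O, ∃ h' : D.O,
    U (1 + D.π ^ m * (h : F)) = 1 + D.π ^ (m + 1) * (h' : F)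

/-- The residue field of `O` contains the `p`-th roots of the series `h(q ^ p)`
(stability under the inverse of the coefficientwise Frobenius). -/
def Gen.RootStable (G : Gen D k) [NeZero p] : Prop :=
  ∀ h : D.O, ∃ γ : D.O, G.res γ ^ p = qExpand k p (G.res h)

/-- Stability under the coefficientwise Frobenius: `f ^ p = f'(q ^ p)`. -/
def Gen.FrobStable (G : Gen D k) [NeZero p] : Prop :=
  ∀ f : D.O, ∃ f' : D.O, qExpand k p (G.res f') = G.res f ^ p

end Fermat.Agent.S33.Depth
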