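/-
S33 / Depth.  TASK DEPTH-1: elementary facts on the substitution `q ↦ q ^ P` in Laurent series.
Everything is proved on coefficients with `qExpand_coeff_mul`, `qExpand_coeff_of_not_dvd`
(see also `ModularCurve.qExpand_injective`, `ModularCurve.qExpand_qExpand`, `qExpand_C`).
-/
import Mathlib
import Fermat.Prelude.Def_ModularCurve_X0

set_option autoImplicit false

namespace Fermat.Agent.S33.Depth

open ModularCurve

variable {R : Type*} [CommRing R] (P : ℕ) [NeZero P]

theorem iterate_qExpand (r : ℕ) (f : LaurentSeries R) :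
    (qExpand R P)^[r] f = qExpand R (P ^ r) f := by
  induction r with
  | zero =>
    rw [Function.iterate_zero, id, qExpand_congr (pow_zero P) f, qExpand_one_apply]
  | succ r ih =>
    rw [Function.iterate_succ_apply', ih, qExpand_qExpand]
    exact qExpand_congr (pow_succ' P r).symm f

/-- `g(q ^ P)` constant implies `g` constant. -/
theorem eq_C_of_qExpand_eq_C {g : LaurentSeries R} {c : R} (h : qExpand R P g = HahnSeries.C c) :
    g = HahnSeries.C c :=
  qExpand_injective P (h.trans (qExpand_C P c).symm)

/-- **Support lemma.**  `g(q ^ P) - g(q)` constant, `P ≥ 2`, implies `g` constant.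
Proof: let `n ≠ 0` with `g.coeff n ≠ 0`.  If `n > 0` take `n` minimal (`n > 0` in the support, which
is well ordered): the coefficient of `q ^ n` in `g(q ^ P) - g` is `g.coeff (n / P) - g.coeff n` or
`- g.coeff n`, and `0 < n / P < n`.  If `n < 0` take `n` minimal (the support is bounded below): the
coefficient of `q ^ (P n)` in `g(q ^ P) - g` is `g.coeff n - g.coeff (P n) = g.coeff n`. -/
theorem eq_C_of_qExpand_sub_eq_C (hP : 2 ≤ P) {g : LaurentSeries R} {c : R}
    (h : qExpand R P g - g = HahnSeries.C c) : ∃ c' : R, g = HahnSeries.C c' := by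
  have hP' : (2 : ℤ) ≤ (P : ℤ) := by exact_mod_cast hP
  -- the coefficient identity
  have hc : ∀ n : ℤ, n ≠ 0 → (qExpand R P g).coeff n = g.coeff n := by
    intro n hn
    have h1 := congrArg (fun s : LaurentSeries R => s.coeff n) h
    simp only [HahnSeries.coeff_sub, HahnSeries.C_apply, HahnSeries.coeff_single_of_ne hn] at h1
    exact sub_eq_zero.mp h1
  -- positive exponents
  have hpos : ∀ n : ℕ, 0 < n → g.coeff (n : ℤ) = 0 := by
    intro n
    induction n using Nat.strong_induction_on with
    | _ n ih =>
      intro hn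
      have hn0 : (n : ℤ) ≠ 0 := by exact_mod_cast hn.ne'
      rw [← hc _ hn0]
      by_cases hd : (P : ℤ) ∣ (n : ℤ)
      · obtain ⟨m, hm⟩ := Int.natCast_dvd_natCast.mp hd
        subst hm
        have hm0 : 0 < m := Nat.pos_of_ne_zero (by rintro rfl; simp at hn)
        have hlt : m < P * m := by nlinarith
        rw [Nat.cast_mul, qExpand_coeff_mul]
        exact ih m hlt hm0
      · exact qExpand_coeff_of_not_dvd P g hd
  -- negative exponents
  have hneg : ∀ n : ℤ, n < 0 → g.coeff n = 0 := by
    intro n hn
    by_contra hne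
    have hg : g ≠ 0 := HahnSeries.ne_zero_of_coeff_ne_zero hne
    have ho : g.order ≤ n := HahnSeries.order_le_of_coeff_ne_zero hne
    have ho0 : g.order < 0 := lt_of_le_of_lt ho hn
    have hlt : (P : ℤ) * g.order < g.order := by nlinarith
    have h1 := hc ((P : ℤ) * g.order) (by
      have : (P : ℤ) * g.order < 0 := lt_trans hlt ho0
      exact this.ne)
    rw [qExpand_coeff_mul, HahnSeries.coeff_eq_zero_of_lt_order hlt] at h1
    exact hg (HahnSeries.coeff_order_eq_zero.mp h1)
  refine ⟨g.coeff 0, ?_⟩
  ext n
  rw [HahnSeries.C_apply]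
  rcases lt_trichotomy n 0 with hn | rfl | hn
  · rw [hneg n hn, HahnSeries.coeff_single_of_ne hn.ne]
  · rw [HahnSeries.coeff_single_same]
  · rw [HahnSeries.coeff_single_of_ne hn.ne']
    obtain ⟨m, rfl⟩ := Int.eq_ofNat_of_zero_le hn.le
    exact hpos m (by exact_mod_cast hn)

/-- In characteristic `p`, a series whose `p`-th power is constant is constant
(`(∑ aₙ qⁿ) ^ p = ∑ aₙ ^ p q ^ (p n)`; or: `g ≠ 0`, `p * order g = 0`, subtract the constant term
and use that `LaurentSeries k` is a field of characteristic `p`: `(g - C a) ^ p = g ^ p - C (a ^ p)`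
is a constant of positive order or zero). -/
theorem eq_C_of_pow_eq_C {k : Type*} [Field k] (p : ℕ) [Fact p.Prime] [CharP k p]
    {g : LaurentSeries k} {c : k} (h : g ^ p = HahnSeries.C c) : ∃ c' : k, g = HahnSeries.C c' := by
  have : CharP (LaurentSeries k) p :=
    charP_of_injective_ringHom (f := (HahnSeries.C : k →+* LaurentSeries k))
      HahnSeries.C_injective p
  refine ⟨g.coeff 0, ?_⟩
  by_contra hne
  have hg' : g - HahnSeries.C (g.coeff 0) ≠ 0 := sub_ne_zero.mpr hne
  have hpow : (g - HahnSeries.C (g.coeff 0)) ^ p = HahnSeries.C (c - g.coeff 0 ^ p) := by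
    rw [sub_pow_char, h, ← map_pow, ← map_sub]
  have hord : (p : ℤ) * (g - HahnSeries.C (g.coeff 0)).order = 0 := by
    have h1 := congrArg HahnSeries.order hpow
    rw [HahnSeries.order_pow, HahnSeries.order_C] at h1
    simpa using h1
  have hp0 : (p : ℤ) ≠ 0 := by exact_mod_cast (Fact.out : p.Prime).ne_zero
  have ho : (g - HahnSeries.C (g.coeff 0)).order = 0 := by
    rcases mul_eq_zero.mp hord with h0 | h0
    · exact absurd h0 hp0
    · exact h0
  apply hg'
  rw [← HahnSeries.coeff_order_eq_zero, ho]
  simp [HahnSeries.C_apply]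

end Fermat.Agent.S33.Depth
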