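/-
S33 / Depth.  TASK DEPTH-2: API of `Rel`, `HasDepth`; normalisation of `c g ^ p ≡ 1`.
-/
import Fermat.Agent.S33.Depth.Defs
import Fermat.Agent.S33.Depth.Series

set_option autoImplicit false

namespace Fermat.Agent.S33.Depth

open Fermat.Agent.S33.Cech ModularCurve

variable {p : ℕ} {F : Type*} [Field F] {D : Data p F} {k : Type*} [Field k] (G : Gen D k)

namespace Gen

variable {G}

theorem Rel.refl (u : F) : G.Rel u u :=
  ⟨1, G.Kc.one_mem, 1, one_ne_zero, one_ne_zero, by simp⟩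

theorem Rel.symm {u u' : F} (h : G.Rel u u') : G.Rel u' u := by
  obtain ⟨c, hc, g, hc0, hg0, rfl⟩ := h
  refine ⟨c⁻¹, G.Kc.inv_mem hc, g⁻¹, inv_ne_zero hc0, inv_ne_zero hg0, ?_⟩
  rw [inv_pow]
  field_simp

theorem Rel.trans {u u' u'' : F} (h : G.Rel u u') (h' : G.Rel u' u'') : G.Rel u u'' := by
  obtain ⟨c, hc, g, hc0, hg0, rfl⟩ := h
  obtain ⟨c', hc', g', hc0', hg0', rfl⟩ := h'
  exact ⟨c' * c, G.Kc.mul_mem hc' hc, g' * g, mul_ne_zero hc0' hc0, mul_ne_zero hg0' hg0, by ring⟩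

/-- multiplication by a nonzero constant -/
theorem Rel.const_mul {c : F} (hc : c ∈ G.Kc) (hc0 : c ≠ 0) (u : F) : G.Rel u (c * u) :=
  ⟨c, hc, 1, hc0, one_ne_zero, by simp⟩

/-- multiplication by a `p`-th power -/
theorem Rel.pow_mul {g : F} (hg : g ≠ 0) (u : F) : G.Rel u (g ^ p * u) :=
  ⟨1, G.Kc.one_mem, g, one_ne_zero, hg, by simp⟩

theorem map_ne_zero_of_monoidHom (T : F →* F) {c : F} (hc : c ≠ 0) : T c ≠ 0 := by
  intro h0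
  have h : T c * T c⁻¹ = 1 := by rw [← map_mul, mul_inv_cancel₀ hc, map_one]
  rw [h0, zero_mul] at h
  exact zero_ne_one h

theorem Rel.map [NeZero p] {T : F →* F} (hT : G.Op T) {u u' : F} (h : G.Rel u u') :
    G.Rel (T u) (T u') := by
  obtain ⟨c, hc, g, hc0, hg0, rfl⟩ := h
  exact ⟨T c, hT.const c hc, T g, map_ne_zero_of_monoidHom T hc0, map_ne_zero_of_monoidHom T hg0,
    by rw [map_mul, map_mul, map_pow]⟩

theorem Rel.iterate [NeZero p] {T : F →* F} (hT : G.Op T) {u u' : F} (h : G.Rel u u') (r : ℕ) :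
    G.Rel (T^[r] u) (T^[r] u') := by
  induction r with
  | zero => exact h
  | succ r ih =>
    rw [Function.iterate_succ_apply', Function.iterate_succ_apply']
    exact ih.map hT

theorem HasDepth.mono {u : F} {m m' : ℕ} (h : m ≤ m') (hu : G.HasDepth u m') : G.HasDepth u m := by
  obtain ⟨u', h1, h2⟩ := hu
  exact ⟨u', h1, h2.mono h⟩

theorem HasDepth.of_rel {u u' : F} {m : ℕ} (h : G.Rel u u') (hu : G.HasDepth u m) :
    G.HasDepth u' m := by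
  obtain ⟨u'', h1, h2⟩ := hu
  exact ⟨u'', h.symm.trans h1, h2⟩

theorem hasDepth_iff {u : F} {m : ℕ} :
    G.HasDepth u m ↔ ∃ h : D.O, G.Rel u (1 + D.π ^ m * (h : F)) := by
  constructor
  · rintro ⟨u', h1, z, hz, h2⟩
    refine ⟨⟨z, hz⟩, ?_⟩
    have e : u' = 1 + D.π ^ m * z := by linear_combination h2
    rwa [← e]
  · rintro ⟨h, hr⟩
    exact ⟨_, hr, h, h.2, by ring⟩

/-- An element of `O` whose reduction is not zero is a unit of `O` (use `G.val`). -/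
theorem inv_mem_of_res_ne_zero (z : D.O) (hz : G.res z ≠ 0) : (z : F)⁻¹ ∈ D.O := by
  have hz0 : (z : F) ≠ 0 := by
    intro h
    apply hz
    have : z = 0 := Subtype.ext h
    rw [this, map_zero]
  obtain ⟨n, y, hy, hy', e⟩ := G.val (z : F) hz0
  rcases le_or_gt n 0 with hn | hn
  · obtain ⟨m, rfl⟩ : ∃ m : ℕ, n = -(m : ℤ) := ⟨n.natAbs, by omega⟩
    rw [e, mul_inv, zpow_neg, inv_inv, zpow_natCast]
    exact D.O.mul_mem (D.O.pow_mem Data.π_memO _) hy'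
  · exfalso
    apply hz
    rw [G.res_eq_zero]
    obtain ⟨m, rfl⟩ : ∃ m : ℕ, n = (m : ℤ) + 1 := ⟨(n - 1).natAbs, by omega⟩
    refine ⟨D.π ^ m * y, D.O.mul_mem (D.O.pow_mem Data.π_memO _) hy, ?_⟩
    rw [e, zpow_add₀ D.π_ne, zpow_natCast, zpow_one]
    ring

/-- **Normalisation.**  If `c g ^ p ≡ 1 mod π` (`c` constant) then `c g ^ p = c₂ r ^ p` with
`c₂ ∈ A`, `c₂ ≡ 1`, `r ≡ 1`.
Proof: `g = π ^ n y`, `y` a unit of `O` (`G.val`); `c₁ := c π ^ (p n) = (c g ^ p) / y ^ p` is a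
constant and a unit of `O`, so `c₁, c₁⁻¹ ∈ A` (`G.mem_A`); `res c₁ * res y ^ p = 1` and `res c₁` is
constant (`G.res_A`), so `res y ^ p` is constant, so `res y` is constant (`eq_C_of_pow_eq_C`), so
`y = d₀ + π t` with `d₀ ∈ A` (`G.res_const`), `d₀` is a unit of `O`; `r := y / d₀`,
`c₂ := c₁ d₀ ^ p`. -/
theorem normalize [Fact p.Prime] [CharP k p] {c g : F} (hc : c ∈ G.Kc)
    (h : D.Dvd 1 (c * g ^ p - 1)) :
    ∃ c₂ ∈ D.A, ∃ r : F, c₂⁻¹ ∈ D.A ∧ D.Dvd 1 (c₂ - 1) ∧ D.Dvd 1 (r - 1) ∧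
      c * g ^ p = c₂ * r ^ p := by
  have hp : p.Prime := Fact.out
  have hne : c * g ^ p ≠ 0 := Data.ne_zero_of_dvd h
  have hg0 : g ≠ 0 := by
    rintro rfl
    rw [zero_pow hp.ne_zero, mul_zero] at hne
    exact hne rfl
  obtain ⟨n, y, hy, hy', e⟩ := G.val g hg0
  have hy0 : y ≠ 0 := by
    rintro rfl
    rw [mul_zero] at e
    exact hg0 e
  have hπK : D.π ∈ G.Kc := ((G.mem_A _).1 D.π_mem).1
  -- the constant `c₁`
  obtain ⟨c₁, hc₁⟩ : ∃ c₁ : F, c₁ = c * (D.π ^ n) ^ p := ⟨_, rfl⟩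
  have hc₁K : c₁ ∈ G.Kc := by
    rw [hc₁]
    exact G.Kc.mul_mem hc (G.Kc.pow_mem (G.Kc.zpow_mem hπK n) p)
  have hcg : c * g ^ p = c₁ * y ^ p := by rw [hc₁, e]; ring
  have hc₁O : c₁ ∈ D.O := by
    have : c₁ = (c * g ^ p) * y⁻¹ ^ p := by
      rw [hcg, inv_pow, mul_assoc, mul_inv_cancel₀ (pow_ne_zero p hy0), mul_one]
    rw [this]
    exact D.O.mul_mem (Data.mem_of_dvd h) (D.O.pow_mem hy' p)
  have hc₁O' : c₁⁻¹ ∈ D.O := by
    have : c₁⁻¹ = (c * g ^ p)⁻¹ * y ^ p := by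
      rw [hcg, mul_inv]; field_simp
    rw [this]
    exact D.O.mul_mem (Data.inv_mem_of_dvd h) (D.O.pow_mem hy p)
  have hc₁A : c₁ ∈ D.A := (G.mem_A _).2 ⟨hc₁K, hc₁O⟩
  have hc₁A' : c₁⁻¹ ∈ D.A := (G.mem_A _).2 ⟨G.Kc.inv_mem hc₁K, hc₁O'⟩
  -- reductions
  have hres : G.res ⟨c₁, hc₁O⟩ * G.res ⟨y, hy⟩ ^ p = 1 := by
    have h0 : G.res ((⟨c₁, hc₁O⟩ : D.O) * (⟨y, hy⟩ : D.O) ^ p - 1) = 0 := by
      rw [G.res_eq_zero]
      have : (((⟨c₁, hc₁O⟩ : D.O) * (⟨y, hy⟩ : D.O) ^ p - 1 : D.O) : F) = c * g ^ p - 1 := by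
        rw [hcg]; rfl
      rw [this]
      exact h
    rw [map_sub, map_mul, map_pow, map_one, sub_eq_zero] at h0
    exact h0
  obtain ⟨a, ha⟩ := G.res_A ⟨c₁, hc₁O⟩ hc₁A
  have ha0 : a ≠ 0 := by
    rintro rfl
    rw [ha, map_zero, zero_mul] at hres
    exact zero_ne_one hres
  have hyp : G.res ⟨y, hy⟩ ^ p = HahnSeries.C a⁻¹ := by
    have h1 : (HahnSeries.C a⁻¹ : LaurentSeries k) * HahnSeries.C a = 1 := by
      rw [← map_mul, inv_mul_cancel₀ ha0, map_one]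
    calc G.res ⟨y, hy⟩ ^ p = (HahnSeries.C a⁻¹ * HahnSeries.C a) * G.res ⟨y, hy⟩ ^ p := by
          rw [h1, one_mul]
      _ = HahnSeries.C a⁻¹ * (G.res ⟨c₁, hc₁O⟩ * G.res ⟨y, hy⟩ ^ p) := by rw [ha, mul_assoc]
      _ = HahnSeries.C a⁻¹ := by rw [hres, mul_one]
  obtain ⟨d₀, hd₀A, hd₀⟩ := G.res_const ⟨y, hy⟩ (eq_C_of_pow_eq_C p hyp)
  have hd₀O : d₀ ∈ D.O := Data.A_leO hd₀A
  have hresd : G.res ⟨d₀, hd₀O⟩ = G.res ⟨y, hy⟩ := by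
    have h0 : G.res ((⟨y, hy⟩ : D.O) - ⟨d₀, hd₀O⟩) = 0 := by
      rw [G.res_eq_zero]
      exact hd₀
    rw [map_sub, sub_eq_zero] at h0
    exact h0.symm
  have hresd0 : G.res ⟨d₀, hd₀O⟩ ≠ 0 := by
    intro h0
    rw [← hresd, h0, zero_pow hp.ne_zero, mul_zero] at hres
    exact zero_ne_one hres
  have hd₀O' : d₀⁻¹ ∈ D.O := inv_mem_of_res_ne_zero ⟨d₀, hd₀O⟩ hresd0
  have hd₀A' : d₀⁻¹ ∈ D.A :=
    (G.mem_A _).2 ⟨G.Kc.inv_mem ((G.mem_A _).1 hd₀A).1, hd₀O'⟩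
  have hd₀0 : d₀ ≠ 0 := by
    rintro rfl
    apply hresd0
    have : (⟨0, hd₀O⟩ : D.O) = 0 := rfl
    rw [this, map_zero]
  have hr : D.Dvd 1 (y * d₀⁻¹ - 1) := by
    have : y * d₀⁻¹ - 1 = (y - d₀) * d₀⁻¹ := by field_simp
    rw [this]
    exact hd₀.mul_right hd₀O'
  have hfin : c * g ^ p = c₁ * d₀ ^ p * (y * d₀⁻¹) ^ p := by
    rw [hcg, mul_pow, inv_pow]; field_simp
  refine ⟨c₁ * d₀ ^ p, D.A.mul_mem hc₁A (D.A.pow_mem hd₀A p), y * d₀⁻¹, ?_, ?_, hr, hfin⟩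
  · rw [mul_inv, ← inv_pow]
    exact D.A.mul_mem hc₁A' (D.A.pow_mem hd₀A' p)
  · have : c₁ * d₀ ^ p - 1
        = (c * g ^ p - 1) - (c₁ * d₀ ^ p) * ((y * d₀⁻¹) ^ p - 1) := by
      rw [hfin]; ring
    rw [this]
    exact h.sub (Data.Dvd.mul_left (D.O.mul_mem hc₁O (D.O.pow_mem hd₀O p))
      (Data.binom_dvd_pow_sub_one hr p))

end Gen

end Fermat.Agent.S33.Depth
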