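/-
S33 / Depth.  TASK DEPTH-4: the three ways of improving a representative `1 + π ^ m h`.
-/
import Fermat.Agent.S33.Depth.Rel

set_option autoImplicit false

namespace Fermat.Agent.S33.Depth

open Fermat.Agent.S33.Cech Fermat.Agent.S33.Cech.Data ModularCurve

variable {p : ℕ} [Fact p.Prime] {F : Type*} [Field F] {D : Data p F} {k : Type*} [Field k]
  {G : Gen D k}

/-- `h` constant modulo `π`: divide by the constant `1 + π ^ m c`. -/
theorem improve_const {m : ℕ} (hm : 1 ≤ m) {h c : F} (hh : h ∈ D.O) (hc : c ∈ D.A)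
    (H : D.Dvd 1 (h - c)) : G.HasDepth (1 + D.π ^ m * h) (m + 1) := by
  obtain ⟨t, ht, hht⟩ := H
  rw [pow_one] at hht
  set κ : F := 1 + D.π ^ m * c with hκ
  have hκA : κ ∈ D.A := D.A.add_mem D.A.one_mem (D.A.mul_mem (D.A.pow_mem D.π_mem m) hc)
  have hκ1 : D.Dvd 1 (κ - 1) := by
    have h1 : κ - 1 = D.π ^ m * c := by rw [hκ]; ring
    rw [h1]
    exact (dvd_pow_mul (A_leO hc)).mono hm
  have hκ0 : κ ≠ 0 := ne_zero_of_dvd hκ1
  have hκinv : κ⁻¹ ∈ D.O := inv_mem_of_dvd hκ1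
  have hκK : κ ∈ G.Kc := ((G.mem_A κ).1 hκA).1
  refine ⟨κ⁻¹ * (1 + D.π ^ m * h),
    Gen.Rel.const_mul (G.Kc.inv_mem hκK) (inv_ne_zero hκ0) _, t * κ⁻¹, D.O.mul_mem ht hκinv, ?_⟩
  have h2 : h = c + D.π * t := by linear_combination hht
  rw [h2]
  field_simp
  rw [hκ]
  ring

/-- common part of `improve_pow` and `improve_as`. -/
theorem improve_aux {m : ℕ} (hm : 1 ≤ m) {h w c g : F} (hh : h ∈ D.O) (hw : w ∈ D.O)
    (hc : c ∈ D.A) (hg : D.Dvd 1 (g - 1))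
    (hbin : D.Dvd (m + 1) ((g ^ p - 1) * (1 + D.π ^ m * h) + D.π ^ m * w))
    (H : D.Dvd 1 (h - w - c)) : G.HasDepth (1 + D.π ^ m * h) (m + 1) := by
  obtain ⟨s, hs, hbs⟩ := hbin
  have hg0 : g ≠ 0 := ne_zero_of_dvd hg
  have h1 : g ^ p * (1 + D.π ^ m * h) = 1 + D.π ^ m * (h - w + D.π * s) := by
    linear_combination hbs
  have h2 : G.HasDepth (1 + D.π ^ m * (h - w + D.π * s)) (m + 1) := by
    refine improve_const hm (D.O.add_mem (D.O.sub_mem hh hw) (D.O.mul_mem π_memO hs)) hc ?_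
    have h3 : h - w + D.π * s - c = (h - w - c) + D.π ^ 1 * s := by ring
    rw [h3]
    exact H.add (dvd_pow_mul hs)
  rw [← h1] at h2
  exact Gen.HasDepth.of_rel (Gen.Rel.pow_mul hg0 _).symm h2

/-- `m = p j` below the critical depth and `h ≡ γ ^ p + c`: multiply by `(1 - π ^ j γ) ^ p`
(`Cech.Data.binom_up` with `a = 1`, `y = -γ`), then `improve_const`. -/
theorem improve_pow (hp2 : p ≠ 2) {j : ℕ} (hj : 1 ≤ j) (hje : (p - 1) * j < D.e) {h γ c : F}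
    (hh : h ∈ D.O) (hγ : γ ∈ D.O) (hc : c ∈ D.A) (H : D.Dvd 1 (h - γ ^ p - c)) :
    G.HasDepth (1 + D.π ^ (p * j) * h) (p * j + 1) := by
  have hp : p.Prime := Fact.out
  have hodd : Odd p := hp.odd_of_ne_two hp2
  have hm : 1 ≤ p * j := Nat.mul_pos hp.pos hj
  have hu : D.Dvd 1 (1 + D.π ^ (p * j) * h - 1) := by
    rw [add_sub_cancel_left]
    exact (dvd_pow_mul hh).mono hm
  have hb := binom_up (D := D) hj hje (a := 1) (y := -γ) D.O.one_mem (D.O.neg_mem hγ) hu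
  have hg : D.Dvd 1 (1 + D.π ^ j * -γ - 1) := by
    rw [add_sub_cancel_left]
    exact (dvd_pow_mul (D.O.neg_mem hγ)).mono hj
  refine improve_aux hm hh (D.O.pow_mem hγ p) hc hg ?_ H
  rw [one_pow, hodd.neg_pow] at hb
  have e : ((1 + D.π ^ j * -γ) ^ p - 1) * (1 + D.π ^ (p * j) * h) + D.π ^ (p * j) * γ ^ p =
      ((1 + D.π ^ j * -γ) ^ p - 1) * (1 + D.π ^ (p * j) * h) - D.π ^ (p * j) * -γ ^ p := by ring
  rw [e]
  exact hb

/-- critical depth `m = p j0` and `h ≡ f ^ p + η f + c`: multiply by `(1 - π ^ j0 f) ^ p`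
(`Cech.Data.binom_as`). -/
theorem improve_as (hp2 : p ≠ 2) {j0 : ℕ} (hj : 1 ≤ j0) (hje : (p - 1) * j0 = D.e) {h f c : F}
    (hh : h ∈ D.O) (hf : f ∈ D.O) (hc : c ∈ D.A) (H : D.Dvd 1 (h - (f ^ p + D.η * f) - c)) :
    G.HasDepth (1 + D.π ^ (p * j0) * h) (p * j0 + 1) := by
  have hp : p.Prime := Fact.out
  have hodd : Odd p := hp.odd_of_ne_two hp2
  have hm : 1 ≤ p * j0 := Nat.mul_pos hp.pos hj
  have hu : D.Dvd 1 (1 + D.π ^ (p * j0) * h - 1) := by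
    rw [add_sub_cancel_left]
    exact (dvd_pow_mul hh).mono hm
  have ha : D.Dvd 1 ((1 : F) - 1) := by
    rw [sub_self]; exact Dvd.zero 1
  have hb := binom_as (D := D) hj hje (a := 1) (y := -f) ha (D.O.neg_mem hf) hu
  have hg : D.Dvd 1 (1 + D.π ^ j0 * -f - 1) := by
    rw [add_sub_cancel_left]
    exact (dvd_pow_mul (D.O.neg_mem hf)).mono hj
  refine improve_aux hm hh
    (D.O.add_mem (D.O.pow_mem hf p) (D.O.mul_mem (A_leO D.η_mem) hf)) hc hg ?_ H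
  rw [one_pow, hodd.neg_pow] at hb
  have e : ((1 + D.π ^ j0 * -f) ^ p - 1) * (1 + D.π ^ (p * j0) * h) +
        D.π ^ (p * j0) * (f ^ p + D.η * f) =
      ((1 + D.π ^ j0 * -f) ^ p - 1) * (1 + D.π ^ (p * j0) * h) -
        D.π ^ (p * j0) * (-f ^ p + D.η * -f) := by ring
  rw [e]
  exact hb

end Fermat.Agent.S33.Depth
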