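/-
S33 / Depth.  TASK DEPTH-3: constants times `p`-th powers have no leading term at a depth prime
to `p` (well-definedness of the leading term `D^m / D^(m+1) → F_k / k`, `p ∤ m`).
-/
import Fermat.Agent.S33.Depth.Rel

set_option autoImplicit false

namespace Fermat.Agent.S33.Depth

open Fermat.Agent.S33.Cech Fermat.Agent.S33.Cech.Data ModularCurve

variable {p : ℕ} [Fact p.Prime] {F : Type*} [Field F] {D : Data p F}

/-- Variant of `Cech.Data.exists_const_approx` (same proof, same induction on `s`): the hypothesis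
is a congruence modulo an arbitrary power `π ^ M`.  The step `s → s + 1` needs `p s + 1 ≤ M` and
`(p - 1) s < e`. -/
theorem const_approx {M : ℕ} {r c : F} (hr : D.Dvd 1 (r - 1)) (hc : c ∈ D.A)
    (H : D.Dvd M (r ^ p - c)) {s : ℕ} (hs1 : 1 ≤ s) (hsM : p * (s - 1) < M)
    (hse : s = 1 ∨ (p - 1) * (s - 1) < D.e) :
    ∃ d ∈ D.A, ∃ g ∈ D.O, D.Dvd 1 (d - 1) ∧ r = d + D.π ^ s * g := by
  have hp : p.Prime := Fact.out
  induction s, hs1 using Nat.le_induction with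
  | base =>
    obtain ⟨z, hz, h⟩ := hr
    exact ⟨1, D.A.one_mem, z, hz, by simpa using Dvd.zero (D := D) 1, by linear_combination h⟩
  | succ s hs1 ih =>
    have hlt : (p - 1) * s < D.e := by
      rcases hse with h | h
      · omega
      · simpa using h
    have hle : p * s + 1 ≤ M := by simpa using hsM
    have hs' : s - 1 ≤ s := Nat.sub_le s 1
    obtain ⟨d, hd, g, hg, hd1, hrd⟩ := ih
      (lt_of_le_of_lt (Nat.mul_le_mul_left p hs') hle)
      (Or.inr (lt_of_le_of_lt (Nat.mul_le_mul_left (p - 1) hs') hlt))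
    have hb := binom_up (D := D) hs1 hlt (a := d) (y := g) (u := 1) (A_leO hd) hg
      (by simpa using Dvd.zero (D := D) 1)
    rw [← hrd, mul_one] at hb
    have h2 : D.Dvd (p * s + 1) (c - d ^ p - D.π ^ (p * s) * g ^ p) := by
      have := hb.sub (H.mono hle)
      have e : r ^ p - d ^ p - D.π ^ (p * s) * g ^ p - (r ^ p - c) =
          c - d ^ p - D.π ^ (p * s) * g ^ p := by ring
      rwa [e] at this
    obtain ⟨c₁, hc₁, h3⟩ := imp_key (D.A.sub_mem hc (D.A.pow_mem hd p)) (D.O.pow_mem hg p) h2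
    obtain ⟨d', hd', t', ht', h4⟩ := D.perfect c₁ hc₁
    have h5 : D.Dvd 1 (g ^ p - d' ^ p) := by
      have h4' : D.Dvd 1 (d' ^ p - c₁) := ⟨t', ht', by rw [h4, pow_one]⟩
      have := h3.sub h4'
      have e : g ^ p - c₁ - (d' ^ p - c₁) = g ^ p - d' ^ p := by ring
      rwa [e] at this
    obtain ⟨g', hg', h6⟩ := dvd_sub_of_pow hg (A_leO hd') h5
    refine ⟨d + D.π ^ s * d', D.A.add_mem hd (D.A.mul_mem (D.A.pow_mem D.π_mem s) hd'), g', hg',
      ?_, ?_⟩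
    · have h7 : D.Dvd 1 (D.π ^ s * d') := (dvd_pow_mul (M := s) (A_leO hd')).mono hs1
      have := hd1.add h7
      have e : d - 1 + D.π ^ s * d' = d + D.π ^ s * d' - 1 := by ring
      rwa [e] at this
    · rw [hrd]
      have : g = d' + D.π * g' := by rw [pow_one] at h6; linear_combination h6
      rw [this]
      ring

variable {k : Type*} [Field k] [CharP k p] {G : Gen D k}

/-- **Lemma (P-a).**  `c g ^ p ≡ 1 mod π ^ m`, `p ∤ m`, `m < p e / (p - 1)`: then `c g ^ p` is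
constant modulo `π ^ (m + 1)`.
Proof: `Gen.normalize`: `c g ^ p = c₂ r ^ p`, so `r ^ p ≡ c₂⁻¹ mod π ^ m`.  Put `a = m / p`,
`s = a + 1`: `p a < m`, `a < j0`, so `const_approx` gives `r = d + π ^ s y`.  By
`Cech.Data.binom_common`, `r ^ p - d ^ p ∈ π ^ min (p s, e + s) O` and `p s ≥ m + 1`,
`e + s = (p - 1) j0 + a + 1 ≥ p (a + 1) ≥ m + 1`.  Answer: `c₂ d ^ p`. -/
theorem pa {j0 : ℕ} (hj0 : (p - 1) * j0 = D.e) {m : ℕ} (hm1 : 1 ≤ m) (hpm : ¬ p ∣ m)
    (hm : m < p * j0) {c g : F} (hc : c ∈ G.Kc) (h : D.Dvd m (c * g ^ p - 1)) :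
    ∃ d ∈ D.A, D.Dvd (m + 1) (c * g ^ p - d) := by
  have hp : p.Prime := Fact.out
  obtain ⟨c₂, hc₂, r, hc₂i, hc₂1, hr1, hcg⟩ := Gen.normalize (G := G) hc (h.mono hm1)
  have hc₂0 : c₂ ≠ 0 := ne_zero_of_dvd hc₂1
  have H : D.Dvd m (r ^ p - c₂⁻¹) := by
    have e : r ^ p - c₂⁻¹ = c₂⁻¹ * (c * g ^ p - 1) := by
      rw [hcg]; field_simp
    rw [e]
    exact Dvd.mul_left (A_leO hc₂i) h
  -- arithmetic
  obtain ⟨k, rfl⟩ : ∃ k, p = k + 1 := ⟨p - 1, by have := hp.one_lt; omega⟩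
  simp only [Nat.add_sub_cancel] at hj0
  set a : ℕ := m / (k + 1) with ha
  have hdm : (k + 1) * a + m % (k + 1) = m := Nat.div_add_mod m (k + 1)
  have hmod : m % (k + 1) < k + 1 := Nat.mod_lt _ (Nat.succ_pos k)
  have hmod0 : m % (k + 1) ≠ 0 := fun h0 => hpm (Nat.dvd_of_mod_eq_zero h0)
  have ha1 : (k + 1) * a < m := by omega
  have ha2 : m + 1 ≤ (k + 1) * (a + 1) := by rw [Nat.mul_succ]; omega
  have haj : a + 1 ≤ j0 := by
    have h1 : (k + 1) * a < (k + 1) * j0 := lt_trans ha1 hm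
    exact Nat.lt_of_mul_lt_mul_left h1
  have hk1 : 1 ≤ k := by have := hp.two_le; omega
  have hke : k * (a + 1) ≤ D.e := by rw [← hj0]; exact Nat.mul_le_mul_left k haj
  have hka : k * a < D.e := by
    have : k * a + k = k * (a + 1) := by ring
    omega
  have he : m + 1 ≤ D.e + (a + 1) := by
    have : (k + 1) * (a + 1) = k * (a + 1) + (a + 1) := by ring
    omega
  obtain ⟨d, hd, y, hy, hd1, hrd⟩ := const_approx (D := D) (M := m) (s := a + 1) hr1 hc₂i H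
    (Nat.succ_le_succ (Nat.zero_le a)) (by simpa using ha1) (Or.inr (by simpa using hka))
  obtain ⟨w, hw, hb⟩ := binom_common (D := D) (j := a + 1) (A_leO hd) hy
  rw [← hrd] at hb
  refine ⟨c₂ * d ^ (k + 1), D.A.mul_mem hc₂ (D.A.pow_mem hd _), ?_⟩
  have e : c * g ^ (k + 1) - c₂ * d ^ (k + 1) = c₂ * (r ^ (k + 1) - d ^ (k + 1)) := by
    rw [hcg]; ring
  rw [e, hb]
  apply Dvd.mul_left (A_leO hc₂)
  have t1 : D.Dvd (m + 1) (D.η * D.π ^ (D.e + (a + 1)) * (d ^ (k + 1 - 1) * y)) := by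
    have : D.η * D.π ^ (D.e + (a + 1)) * (d ^ (k + 1 - 1) * y)
        = D.π ^ (D.e + (a + 1)) * (D.η * (d ^ (k + 1 - 1) * y)) := by ring
    rw [this]
    exact (dvd_pow_mul (D.O.mul_mem (A_leO D.η_mem)
      (D.O.mul_mem (D.O.pow_mem (A_leO hd) _) hy))).mono he
  have t2 : D.Dvd (m + 1) (D.π ^ (D.e + 2 * (a + 1)) * w) :=
    (dvd_pow_mul hw).mono (by omega)
  have t3 : D.Dvd (m + 1) (D.π ^ ((k + 1) * (a + 1)) * y ^ (k + 1)) :=
    (dvd_pow_mul (D.O.pow_mem hy _)).mono ha2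
  exact (t1.add t2).add t3

/-- **Critical depth.**  `c g ^ p = 1 + π ^ (p j0) h`: then `h ≡ f ^ p + η f + d`.
Proof: `Gen.normalize` and `Cech.Data.imp_as` applied to `r ^ p = c₂⁻¹ + π ^ (p j0) (c₂⁻¹ h)`;
`c₂⁻¹ ≡ 1`. -/
theorem pa_as {j0 : ℕ} (hj1 : 1 ≤ j0) (hj0 : (p - 1) * j0 = D.e) {c g h : F} (hc : c ∈ G.Kc)
    (hh : h ∈ D.O) (H : c * g ^ p = 1 + D.π ^ (p * j0) * h) :
    ∃ f ∈ D.O, ∃ d ∈ D.A, D.Dvd 1 (h - (f ^ p + D.η * f) - d) := by
  have hp : p.Prime := Fact.out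
  have hpj : 1 ≤ p * j0 := Nat.mul_pos hp.pos hj1
  have h1 : D.Dvd 1 (c * g ^ p - 1) := by
    have e : c * g ^ p - 1 = D.π ^ (p * j0) * h := by rw [H]; ring
    rw [e]
    exact (dvd_pow_mul hh).mono hpj
  obtain ⟨c₂, hc₂, r, hc₂i, hc₂1, hr1, hcg⟩ := Gen.normalize (G := G) hc h1
  have hc₂0 : c₂ ≠ 0 := ne_zero_of_dvd hc₂1
  refine imp_as (D := D) hj1 hj0 (r := r) (c := c₂⁻¹) hr1 hc₂i hh ?_
  have e : r ^ p - c₂⁻¹ - D.π ^ (p * j0) * h = D.π ^ (p * j0) * (-(c₂⁻¹ * h)) * (c₂ - 1) := by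
    have h2 : r ^ p = c₂⁻¹ * (1 + D.π ^ (p * j0) * h) := by
      rw [← H, hcg]; field_simp
    rw [h2]
    field_simp
    ring
  rw [e]
  exact (dvd_pow_mul (D.O.neg_mem (D.O.mul_mem (A_leO hc₂i) hh))).mul hc₂1

end Fermat.Agent.S33.Depth
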