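/-
S33 / Depth.  TASK DEPTH-5: comparison of the leading terms of two representatives
`1 + π ^ m h`, `1 + π ^ m h'` of the same class.
-/
import Fermat.Agent.S33.Depth.PA

set_option autoImplicit false

namespace Fermat.Agent.S33.Depth

open Fermat.Agent.S33.Cech Fermat.Agent.S33.Cech.Data ModularCurve

variable {p : ℕ} [Fact p.Prime] {F : Type*} [Field F] {D : Data p F} {k : Type*} [Field k]
  [CharP k p] {G : Gen D k}

/-- `(1 + π ^ m h') / (1 + π ^ m h) = 1 + π ^ m (h' - h) + π ^ (m + 1) t`.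
(`t = - π ^ (m - 1) h (h' - h) / (1 + π ^ m h)`, the denominator is a unit of `O` by
`Cech.Data.inv_mem_of_dvd`.) -/
theorem quot_expand {m : ℕ} (hm : 1 ≤ m) {h h' x : F} (hh : h ∈ D.O) (hh' : h' ∈ D.O)
    (H : 1 + D.π ^ m * h' = x * (1 + D.π ^ m * h)) :
    D.Dvd (m + 1) (x - 1 - D.π ^ m * (h' - h)) := by
  obtain ⟨m', rfl⟩ : ∃ m', m = m' + 1 := ⟨m - 1, by omega⟩
  have hw1 : D.Dvd 1 ((1 + D.π ^ (m' + 1) * h) - 1) := by
    have h1 : D.Dvd (m' + 1) (D.π ^ (m' + 1) * h) := dvd_pow_mul hh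
    have h2 : (1 + D.π ^ (m' + 1) * h) - 1 = D.π ^ (m' + 1) * h := by ring
    rw [h2]
    exact h1.mono (by omega)
  have hwi : (1 + D.π ^ (m' + 1) * h)⁻¹ ∈ D.O := inv_mem_of_dvd hw1
  have hw0 : (1 + D.π ^ (m' + 1) * h) ≠ 0 := ne_zero_of_dvd hw1
  have hi : (1 + D.π ^ (m' + 1) * h) * (1 + D.π ^ (m' + 1) * h)⁻¹ = 1 := mul_inv_cancel₀ hw0
  have hx : x = (1 + D.π ^ (m' + 1) * h') * (1 + D.π ^ (m' + 1) * h)⁻¹ := by
    rw [H, mul_assoc, hi, mul_one]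
  refine ⟨-(D.π ^ m' * h * (h' - h) * (1 + D.π ^ (m' + 1) * h)⁻¹), ?_, ?_⟩
  · exact D.O.neg_mem (D.O.mul_mem (D.O.mul_mem (D.O.mul_mem (D.O.pow_mem π_memO _) hh)
      (D.O.sub_mem hh' hh)) hwi)
  · rw [hx]
    generalize (1 + D.π ^ (m' + 1) * h)⁻¹ = i at hi
    linear_combination (1 + D.π ^ (m' + 1) * (h' - h)) * hi

/-- **Leading terms, depth prime to `p`.**  If `1 + π ^ m h` and `1 + π ^ m h'` are in the same
class, `p ∤ m`, `m < p j0`, then `h' - h` is constant modulo `π`.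
Proof: `x = c g ^ p`; `quot_expand` gives `x ≡ 1 mod π ^ m`, `pa` gives `d ∈ A` with
`x ≡ d mod π ^ (m + 1)`; so `(d - 1) - π ^ m (h' - h) ∈ π ^ (m + 1) O` and `Cech.Data.imp_key`
(with `a = d - 1`) concludes. -/
theorem lead_const {j0 : ℕ} (hj0 : (p - 1) * j0 = D.e) {m : ℕ} (hm1 : 1 ≤ m) (hpm : ¬ p ∣ m)
    (hm : m < p * j0) {h h' : F} (hh : h ∈ D.O) (hh' : h' ∈ D.O)
    (H : G.Rel (1 + D.π ^ m * h) (1 + D.π ^ m * h')) :
    ∃ c ∈ D.A, D.Dvd 1 (h' - h - c) := by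
  obtain ⟨c, hc, g, -, -, Hx⟩ := H
  have hq := quot_expand hm1 hh hh' Hx
  have hdm : D.Dvd m (c * g ^ p - 1) := by
    have h1 : c * g ^ p - 1 = (c * g ^ p - 1 - D.π ^ m * (h' - h)) + D.π ^ m * (h' - h) := by ring
    rw [h1]
    exact (hq.mono (by omega)).add (dvd_pow_mul (D.O.sub_mem hh' hh))
  obtain ⟨d, hd, hdd⟩ := pa (G := G) hj0 hm1 hpm hm hc hdm
  have h2 : D.Dvd (m + 1) ((d - 1) - D.π ^ m * (h' - h)) := by
    have h1 : (d - 1) - D.π ^ m * (h' - h) =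
        (c * g ^ p - 1 - D.π ^ m * (h' - h)) - (c * g ^ p - d) := by ring
    rw [h1]
    exact hq.sub hdd
  exact imp_key (D.A.sub_mem hd D.A.one_mem) (D.O.sub_mem hh' hh) h2

/-- the same on reductions -/
theorem lead_const_res {j0 : ℕ} (hj0 : (p - 1) * j0 = D.e) {m : ℕ} (hm1 : 1 ≤ m) (hpm : ¬ p ∣ m)
    (hm : m < p * j0) (h h' : D.O)
    (H : G.Rel (1 + D.π ^ m * (h : F)) (1 + D.π ^ m * (h' : F))) :
    ∃ c : k, G.res h' - G.res h = HahnSeries.C c := by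
  obtain ⟨c, hc, hd⟩ := lead_const hj0 hm1 hpm hm h.2 h'.2 H
  obtain ⟨c', hc'⟩ := G.res_A ⟨c, A_leO hc⟩ hc
  refine ⟨c', ?_⟩
  have h0 : G.res (h' - h - ⟨c, A_leO hc⟩) = 0 := (G.res_eq_zero _).2 hd
  rw [map_sub, map_sub, hc', sub_eq_zero] at h0
  exact h0

/-- **Leading terms, critical depth.**  If `1 + π ^ (p j0) h` and `1 + π ^ (p j0) h'` are in the same
class then `h' - h ≡ f ^ p + η f + d`.
Proof: `x = c g ^ p = 1 + π ^ (p j0) h''` with `h'' ≡ h' - h mod π` (`quot_expand`), `pa_as`. -/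
theorem lead_as {j0 : ℕ} (hj1 : 1 ≤ j0) (hj0 : (p - 1) * j0 = D.e) {h h' : F} (hh : h ∈ D.O)
    (hh' : h' ∈ D.O) (H : G.Rel (1 + D.π ^ (p * j0) * h) (1 + D.π ^ (p * j0) * h')) :
    ∃ f ∈ D.O, ∃ d ∈ D.A, D.Dvd 1 (h' - h - (f ^ p + D.η * f) - d) := by
  have hp : p.Prime := Fact.out
  obtain ⟨c, hc, g, -, -, Hx⟩ := H
  have hm1 : 1 ≤ p * j0 := Nat.mul_pos hp.pos hj1
  obtain ⟨t, ht, hq⟩ := quot_expand hm1 hh hh' Hx
  have hh'' : h' - h + D.π * t ∈ D.O :=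
    D.O.add_mem (D.O.sub_mem hh' hh) (D.O.mul_mem π_memO ht)
  have hx : c * g ^ p = 1 + D.π ^ (p * j0) * (h' - h + D.π * t) := by
    rw [pow_succ] at hq
    linear_combination hq
  obtain ⟨f, hf, d, hd, hfd⟩ := pa_as (G := G) hj1 hj0 hc hh'' hx
  refine ⟨f, hf, d, hd, ?_⟩
  have h1 : h' - h - (f ^ p + D.η * f) - d =
      (h' - h + D.π * t - (f ^ p + D.η * f) - d) - D.π ^ 1 * t := by ring
  rw [h1]
  exact hfd.sub (dvd_pow_mul ht)

/-- If `res h` is constant then `1 + π ^ m h` can be improved (`G.res_const`, `improve_const`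
is in `Improve.lean`; here only the translation). -/
theorem exists_const_of_res_eq_C (h : D.O) {c : k} (H : G.res h = HahnSeries.C c) :
    ∃ c' ∈ D.A, D.Dvd 1 ((h : F) - c') :=
  G.res_const h ⟨c, H⟩

end Fermat.Agent.S33.Depth
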