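/-
S33 / Depth.  TASK DEPTH-6: **Lemma L1.**  On a finite set of classes of depth `≥ 1` which is
permuted by `T_p`, every class has depth `≥ p e / (p - 1)`.
-/
import Fermat.Agent.S33.Depth.Lead
import Fermat.Agent.S33.Depth.Improve

set_option autoImplicit false

namespace Fermat.Agent.S33.Depth

open Fermat.Agent.S33.Cech Fermat.Agent.S33.Cech.Data ModularCurve

variable {p : ℕ} [Fact p.Prime] {F : Type*} [Field F] {D : Data p F} {k : Type*} [Field k]
  {G : Gen D k} {T : F →* F}

/-- `T` does not decrease the depth (`hasDepth_iff`, `Rel.map`, `hT.star`). -/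
theorem hasDepth_T (hT : G.Op T) {u : F} {m : ℕ} (hm : 1 ≤ m) (hu : G.HasDepth u m) :
    G.HasDepth (T u) m := by
  obtain ⟨h, hh⟩ := Gen.hasDepth_iff.1 hu
  obtain ⟨h', hh', -⟩ := hT.star m hm h
  refine Gen.hasDepth_iff.2 ⟨h', ?_⟩
  rw [← hh']
  exact hh.map hT

/-- Iteration of `(*)` (induction on `r`; `iterate_qExpand` or `ModularCurve.qExpand_qExpand`). -/
theorem star_iterate (hT : G.Op T) (r : ℕ) {m : ℕ} (hm : 1 ≤ m) (h : D.O) :
    ∃ h' : D.O, T^[r] (1 + D.π ^ m * (h : F)) = 1 + D.π ^ m * (h' : F) ∧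
      G.res h' = qExpand k (p ^ r) (G.res h) := by
  induction r with
  | zero =>
    refine ⟨h, rfl, ?_⟩
    rw [qExpand_congr (pow_zero p), qExpand_one_apply]
  | succ r ih =>
    obtain ⟨h₁, h₁T, h₁r⟩ := ih
    obtain ⟨h₂, h₂T, h₂r⟩ := hT.star m hm h₁
    refine ⟨h₂, ?_, ?_⟩
    · rw [Function.iterate_succ_apply', h₁T, h₂T]
    · rw [h₂r, h₁r, qExpand_qExpand]
      exact qExpand_congr (pow_succ' p r).symm _

/-- At a depth `p j` below the critical one, `T` increases the depth: the leading term of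
`T (1 + π ^ (p j) h)` is `h(q ^ p) = γ ^ p` (`RootStable`), use `improve_pow` with `c = 0`
(`G.res_eq_zero` translates `res h' = res γ ^ p` into `Dvd 1 (h' - γ ^ p)`). -/
theorem hasDepth_T_succ (hp2 : p ≠ 2) (hT : G.Op T) (hroot : G.RootStable) {u : F} {j : ℕ}
    (hj : 1 ≤ j) (hje : (p - 1) * j < D.e) (hu : G.HasDepth u (p * j)) :
    G.HasDepth (T u) (p * j + 1) := by
  have hp1 : 1 ≤ p := (Fact.out : p.Prime).one_lt.le
  obtain ⟨h, hh⟩ := Gen.hasDepth_iff.1 hu
  obtain ⟨h', hh', hr⟩ := hT.star (p * j) (Nat.mul_pos hp1 hj) h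
  obtain ⟨γ, hγ⟩ := hroot h
  have h0 : G.res (h' - γ ^ p) = 0 := by
    rw [map_sub, map_pow, hr, hγ, sub_self]
  have h1 : D.Dvd 1 ((h' : F) - (γ : F) ^ p - 0) := by
    have := (G.res_eq_zero _).1 h0
    simpa using this
  have h2 : G.HasDepth (1 + D.π ^ (p * j) * (h' : F)) (p * j + 1) :=
    improve_pow hp2 hj hje h'.2 γ.2 D.A.zero_mem h1
  have h3 : G.Rel (T u) (1 + D.π ^ (p * j) * (h' : F)) := by
    rw [← hh']
    exact hh.map hT
  exact h2.of_rel h3.symm

/-- At a depth prime to `p` a `T`-periodic class can be improved.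
Proof: `u ~ u₁ = 1 + π ^ m h` (`hasDepth_iff`); `T^[r] u₁ = 1 + π ^ m h'` with
`res h' = (res h)(q ^ (p ^ r))` (`star_iterate`); `u₁ ~ u ~ T^[r] u ~ T^[r] u₁` (`Rel.iterate`);
`lead_const_res`: `res h' - res h` is constant; `eq_C_of_qExpand_sub_eq_C` (`2 ≤ p ^ r`): `res h` is
constant; `G.res_const`, `improve_const`, `HasDepth.of_rel`. -/
theorem hasDepth_succ_of_periodic [CharP k p] (hT : G.Op T) {j0 : ℕ} (hj0 : (p - 1) * j0 = D.e)
    {m : ℕ} (hm1 : 1 ≤ m) (hpm : ¬ p ∣ m) (hm : m < p * j0) {u : F} {r : ℕ} (hr : 1 ≤ r)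
    (hper : G.Rel u (T^[r] u)) (hu : G.HasDepth u m) : G.HasDepth u (m + 1) := by
  have hp2 : 2 ≤ p := (Fact.out : p.Prime).two_le
  obtain ⟨h, hh⟩ := Gen.hasDepth_iff.1 hu
  obtain ⟨h', hh', hres⟩ := star_iterate hT r hm1 h
  have hrel : G.Rel (1 + D.π ^ m * (h : F)) (1 + D.π ^ m * (h' : F)) := by
    rw [← hh']
    exact (hh.symm.trans hper).trans (hh.iterate hT r)
  obtain ⟨c, hc⟩ := lead_const_res hj0 hm1 hpm hm h h' hrel
  rw [hres] at hc
  have hpr : 2 ≤ p ^ r := hp2.trans (Nat.le_self_pow (by omega) p)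
  obtain ⟨c', hc'⟩ := eq_C_of_qExpand_sub_eq_C (p ^ r) hpr hc
  obtain ⟨a, ha, hda⟩ := G.res_const h ⟨c', hc'⟩
  exact (improve_const hm1 h.2 ha hda).of_rel hh.symm

/-- compatibility of the representatives with the iterates -/
theorem rel_iterate_rep (hT : G.Op T) {X : Type*} (rep : X → F) (t : X → X)
    (hrel : ∀ x, G.Rel (T (rep x)) (rep (t x))) (r : ℕ) (x : X) :
    G.Rel (T^[r] (rep x)) (rep (t^[r] x)) := by
  induction r with
  | zero => exact Gen.Rel.refl _
  | succ r ih =>
    rw [Function.iterate_succ_apply', Function.iterate_succ_apply']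
    exact (ih.map hT).trans (hrel _)

/-- every point of a finite set is periodic under an injective self-map -/
theorem exists_periodic {X : Type*} [Finite X] (t : X → X) (ht : Function.Injective t) (x : X) :
    ∃ r : ℕ, 1 ≤ r ∧ t^[r] x = x := by
  obtain ⟨a, b, hab, h⟩ := Finite.exists_ne_map_eq_of_infinite (fun n : ℕ => t^[n] x)
  have key : ∀ a b : ℕ, a < b → t^[a] x = t^[b] x → ∃ r : ℕ, 1 ≤ r ∧ t^[r] x = x := by
    intro a b hab h
    refine ⟨b - a, by omega, ?_⟩
    apply ht.iterate a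
    rw [← Function.iterate_add_apply, h]
    congr 2
    omega
  rcases lt_or_gt_of_ne hab with h' | h'
  · exact key a b h' h
  · exact key b a h' h.symm

/-- **Lemma L1.**  Induction on `m` (`1 ≤ m ≤ p j0`): all `rep x` have depth `≥ m`.
Step `m → m + 1`, `m < p j0`.  If `p ∣ m`, `m = p j`, `j < j0`: `x = t y` (`t` is surjective,
`Finite.surjective_of_injective`), `hasDepth_T_succ` for `rep y`, `HasDepth.of_rel (hrel y)`.
If `p ∤ m`: `exists_periodic`, `rel_iterate_rep`, `hasDepth_succ_of_periodic`. -/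
theorem L1 [CharP k p] (hp2 : p ≠ 2) (hT : G.Op T) (hroot : G.RootStable) {j0 : ℕ}
    (hj0 : (p - 1) * j0 = D.e) {X : Type*} [Finite X] (rep : X → F) (t : X → X)
    (ht : Function.Injective t) (hrel : ∀ x, G.Rel (T (rep x)) (rep (t x)))
    (h1 : ∀ x, G.HasDepth (rep x) 1) : ∀ x, G.HasDepth (rep x) (p * j0) := by
  have hpp : p.Prime := Fact.out
  have hp1 : 1 < p := hpp.one_lt
  have hj1 : 1 ≤ j0 := by
    rcases Nat.eq_zero_or_pos j0 with h | h
    · have := D.e_pos
      rw [h, Nat.mul_zero] at hj0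
      omega
    · exact h
  have main : ∀ m : ℕ, 1 ≤ m → m ≤ p * j0 → ∀ x, G.HasDepth (rep x) m := by
    intro m hm
    induction m, hm using Nat.le_induction with
    | base => exact fun _ => h1
    | succ m hm ih =>
      intro hle x
      have ih' := ih (by omega)
      by_cases hpm : p ∣ m
      · obtain ⟨j, rfl⟩ := hpm
        have hj : 1 ≤ j := by
          rcases Nat.eq_zero_or_pos j with h | h
          · rw [h] at hm; omega
          · exact h
        have hjj : j < j0 := by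
          have : p * j < p * j0 := by omega
          exact Nat.lt_of_mul_lt_mul_left this
        have hje : (p - 1) * j < D.e := by
          rw [← hj0]
          exact Nat.mul_lt_mul_of_pos_left hjj (by omega)
        obtain ⟨y, rfl⟩ := Finite.surjective_of_injective ht x
        exact (hasDepth_T_succ hp2 hT hroot hj hje (ih' y)).of_rel (hrel y)
      · obtain ⟨r, hr, hrx⟩ := exists_periodic t ht x
        have hper : G.Rel (rep x) (T^[r] (rep x)) := by
          have := rel_iterate_rep hT rep t hrel r x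
          rw [hrx] at this
          exact this.symm
        exact hasDepth_succ_of_periodic hT hj0 hm hpm (by omega) hr hper (ih' x)
  exact main (p * j0) (Nat.mul_pos (by omega) hj1) le_rfl

end Fermat.Agent.S33.Depth
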