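/-
S33 / Depth.  TASK DEPTH-14: depth zero.  A class killed by `T_p` has depth `≥ 1`
(Eichler-Shimura: `T_p ≡ V · Frob` on the residue field).
-/
import Fermat.Agent.S33.Depth.Rel
import Fermat.Prelude.Def_ModularCurve_LaurentCoeff
import Fermat.Agent.Lib.MulHecke.Frob

set_option autoImplicit false

namespace Fermat.Agent.S33.Depth

open Fermat.Agent.S33.Cech Fermat.Agent.S33.Cech.Data ModularCurve

variable {p : ℕ} [Fact p.Prime] {F : Type*} [Field F] {D : Data p F} {k : Type*} [Field k]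
  [CharP k p]

/-- `T` on units of `O`: `res (T y) = (res y)(q ^ p) * Frob (res y)`. -/
def Gen.Op0 (G : Gen D k) (T : F →* F) : Prop :=
  ∀ y : D.O, G.res y ≠ 0 → ∃ y' : D.O, T (y : F) = (y' : F) ∧
    G.res y' = qExpand k p (G.res y) * coeffMap (frobenius k p) (G.res y)

variable {G : Gen D k} {T : F →* F}

/-- `RootStable` in terms of the coefficientwise Frobenius: every `res h` is `Frob (res γ)`.
(`(res γ) ^ p = (Frob (res γ))(q ^ p)`: see `Fermat.Agent.Lib.MulHecke.pow_char_eq`, which may be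
imported, and `qExpand_injective`.) -/
theorem RootStable.exists_frob (hroot : G.RootStable) (h : D.O) :
    ∃ γ : D.O, coeffMap (frobenius k p) (G.res γ) = G.res h := by
  obtain ⟨γ, hγ⟩ := hroot h
  refine ⟨γ, ?_⟩
  rw [Fermat.Agent.Lib.MulHecke.pow_char_eq] at hγ
  exact qExpand_injective p hγ

/-- a unit of `O` has nonzero reduction -/
theorem L0.res_ne_zero_of_inv_mem (y : D.O) (hy : (y : F)⁻¹ ∈ D.O) (hy0 : (y : F) ≠ 0) :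
    G.res y ≠ 0 := by
  intro h0
  rw [G.res_eq_zero] at h0
  obtain ⟨z, hz, e⟩ := h0
  apply D.π_inv
  have : D.π⁻¹ = z * (y : F)⁻¹ := by
    rw [e, pow_one, mul_inv]
    have hz0 : z ≠ 0 := by
      rintro rfl
      rw [mul_zero] at e
      exact hy0 e
    field_simp
  rw [this]
  exact D.O.mul_mem hz hy

theorem L0.ne_zero_of_res_ne_zero (y : D.O) (hy : G.res y ≠ 0) : (y : F) ≠ 0 := by
  intro h
  apply hy
  have : y = 0 := Subtype.ext h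
  rw [this, map_zero]

theorem L0.π_mem_Kc : D.π ∈ G.Kc := ((G.mem_A _).1 D.π_mem).1

/-- Every nonzero `u` is related to a unit of `O` (`G.val`; `π ^ n` is a constant). -/
theorem exists_rel_unit (u : F) (hu : u ≠ 0) : ∃ y : D.O, G.res y ≠ 0 ∧ G.Rel u (y : F) := by
  obtain ⟨n, y, hy, hy', e⟩ := G.val u hu
  have hy0 : y ≠ 0 := by
    rintro rfl
    rw [mul_zero] at e
    exact hu e
  refine ⟨⟨y, hy⟩, L0.res_ne_zero_of_inv_mem ⟨y, hy⟩ hy' hy0, (D.π ^ n)⁻¹,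
    G.Kc.inv_mem (G.Kc.zpow_mem L0.π_mem_Kc n), 1, inv_ne_zero (zpow_ne_zero n D.π_ne),
    one_ne_zero, ?_⟩
  show y = (D.π ^ n)⁻¹ * 1 ^ p * u
  rw [e, one_pow, mul_one, inv_mul_cancel_left₀ (zpow_ne_zero n D.π_ne)]

/-- If `c g ^ p` (`c` constant) is a unit `y'` of `O` then `y' = c₁ g₁ ^ p` with `c₁` a unit of `A` and
`g₁` a unit of `O`.
(`g = π ^ n g₁`, `c₁ = c π ^ (p n) = y' / g₁ ^ p` is a constant and a unit of `O`: `G.mem_A`.) -/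
theorem unit_of_const_mul_pow {c g : F} (hc : c ∈ G.Kc) (y' : D.O) (hy' : G.res y' ≠ 0)
    (h : (y' : F) = c * g ^ p) :
    ∃ c₁ ∈ D.A, ∃ g₁ : D.O, c₁⁻¹ ∈ D.A ∧ G.res g₁ ≠ 0 ∧ (y' : F) = c₁ * (g₁ : F) ^ p := by
  have hp : p.Prime := Fact.out
  have hy0 : (y' : F) ≠ 0 := L0.ne_zero_of_res_ne_zero y' hy'
  have hg0 : g ≠ 0 := by
    rintro rfl
    rw [zero_pow hp.ne_zero, mul_zero] at h
    exact hy0 h
  obtain ⟨n, g₁, hg₁, hg₁', e⟩ := G.val g hg0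
  have hg₁0 : g₁ ≠ 0 := by
    rintro rfl
    rw [mul_zero] at e
    exact hg0 e
  obtain ⟨c₁, hc₁⟩ : ∃ c₁ : F, c₁ = c * (D.π ^ n) ^ p := ⟨_, rfl⟩
  have hc₁K : c₁ ∈ G.Kc := by
    rw [hc₁]
    exact G.Kc.mul_mem hc (G.Kc.pow_mem (G.Kc.zpow_mem L0.π_mem_Kc n) p)
  have hcg : (y' : F) = c₁ * g₁ ^ p := by rw [h, hc₁, e]; ring
  have hc₁O : c₁ ∈ D.O := by
    have : c₁ = (y' : F) * g₁⁻¹ ^ p := by
      rw [hcg, inv_pow, mul_assoc, mul_inv_cancel₀ (pow_ne_zero p hg₁0), mul_one]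
    rw [this]
    exact D.O.mul_mem y'.2 (D.O.pow_mem hg₁' p)
  have hc₁O' : c₁⁻¹ ∈ D.O := by
    have : c₁⁻¹ = (y' : F)⁻¹ * g₁ ^ p := by
      rw [hcg, mul_inv]; field_simp
    rw [this]
    exact D.O.mul_mem (Gen.inv_mem_of_res_ne_zero y' hy') (D.O.pow_mem hg₁ p)
  exact ⟨c₁, (G.mem_A _).2 ⟨hc₁K, hc₁O⟩, ⟨g₁, hg₁⟩, (G.mem_A _).2 ⟨G.Kc.inv_mem hc₁K, hc₁O'⟩,
    L0.res_ne_zero_of_inv_mem ⟨g₁, hg₁⟩ hg₁' hg₁0, hcg⟩

/-- **Depth zero.**  `u ~ y` unit (`exists_rel_unit`), `1 ~ T u ~ T y = y'`,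
`res y' = V ȳ * Frob ȳ` (`hT0`), `V ȳ = (res γ) ^ p` (`hroot`), `y' = c₁ g₁ ^ p`
(`unit_of_const_mul_pow`).  So `Frob ȳ = res c₁ * t ^ p`, `t = res (g₁ / γ)` (`γ` is a unit,
`inv_mem_of_res_ne_zero`).  Choose `γ₂` with `Frob (res γ₂) = t` (`RootStable.exists_frob`) and
`c₀ ∈ A` with `c₀ ^ p ≡ c₁` (`D.perfect`); `res c₀ = C b` (`G.res_A`), so `Frob (res c₀) = res c₀ ^ p
= res c₁`.  Then `Frob ȳ = Frob (res (c₀ γ₂ ^ p))`, `Frob` is injective (field), so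
`y / (c₀ γ₂ ^ p) ≡ 1 mod π` (`c₀`, `γ₂` are units of `O`; `c₀⁻¹ ∈ Kc`). -/
theorem L2z (hT : G.Op T) (hT0 : G.Op0 T) (hroot : G.RootStable) {u : F} (hu : u ≠ 0)
    (htriv : G.Rel 1 (T u)) : G.HasDepth u 1 := by
  have hp : p.Prime := Fact.out
  obtain ⟨y, hy, hry⟩ := exists_rel_unit (G := G) u hu
  obtain ⟨y', hTy, hy'⟩ := hT0 y hy
  have hrel : G.Rel 1 (y' : F) := by
    rw [← hTy]
    exact htriv.trans (hry.map hT)
  obtain ⟨c, hc, g, -, -, hcg⟩ := hrel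
  rw [mul_one] at hcg
  have hFinj : Function.Injective (coeffMap (frobenius k p)) := (coeffMap (frobenius k p)).injective
  have hFy : coeffMap (frobenius k p) (G.res y) ≠ 0 := by
    rw [Ne, map_eq_zero]; exact hy
  have hVy : qExpand k p (G.res y) ≠ 0 := by
    rw [Ne, map_eq_zero]; exact hy
  have hy'0 : G.res y' ≠ 0 := by
    rw [hy']; exact mul_ne_zero hVy hFy
  obtain ⟨c₁, hc₁, g₁, hc₁', hg₁, e₁⟩ := unit_of_const_mul_pow hc y' hy'0 hcg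
  obtain ⟨γ, hγ⟩ := hroot y
  have hγ0 : G.res γ ≠ 0 := by
    intro h0
    rw [h0, zero_pow hp.ne_zero] at hγ
    exact hVy hγ.symm
  have hγinv : (γ : F)⁻¹ ∈ D.O := Gen.inv_mem_of_res_ne_zero γ hγ0
  have hγF : (γ : F) ≠ 0 := L0.ne_zero_of_res_ne_zero γ hγ0
  have hc₁O : c₁ ∈ D.O := Data.A_leO hc₁
  -- `t₀ = g₁ / γ`
  obtain ⟨t₀, ht₀⟩ : ∃ t₀ : D.O, t₀ * γ = g₁ :=
    ⟨⟨(g₁ : F) * (γ : F)⁻¹, D.O.mul_mem g₁.2 hγinv⟩, Subtype.ext (by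
      show (g₁ : F) * (γ : F)⁻¹ * (γ : F) = g₁
      rw [mul_assoc, inv_mul_cancel₀ hγF, mul_one])⟩
  have hy'e : y' = (⟨c₁, hc₁O⟩ : D.O) * g₁ ^ p := Subtype.ext e₁
  have h1 : coeffMap (frobenius k p) (G.res y) = G.res ⟨c₁, hc₁O⟩ * G.res t₀ ^ p := by
    have h2 : G.res γ ^ p * coeffMap (frobenius k p) (G.res y) =
        G.res γ ^ p * (G.res ⟨c₁, hc₁O⟩ * G.res t₀ ^ p) := by
      have h4 : G.res γ ^ p * coeffMap (frobenius k p) (G.res y) = G.res y' := by rw [hγ, hy']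
      rw [h4, hy'e, map_mul, map_pow, ← ht₀, map_mul, mul_pow]
      ring
    exact mul_left_cancel₀ (pow_ne_zero p hγ0) h2
  obtain ⟨γ₂, hγ₂⟩ := RootStable.exists_frob hroot t₀
  obtain ⟨c₀, hc₀, t, ht, hct⟩ := D.perfect c₁ hc₁
  have hc₀O : c₀ ∈ D.O := Data.A_leO hc₀
  have hres0 : G.res ⟨c₀, hc₀O⟩ ^ p = G.res ⟨c₁, hc₁O⟩ := by
    have h0 : G.res ((⟨c₀, hc₀O⟩ : D.O) ^ p - ⟨c₁, hc₁O⟩) = 0 := by
      rw [G.res_eq_zero]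
      exact ⟨t, ht, by rw [pow_one]; exact hct⟩
    rw [map_sub, map_pow, sub_eq_zero] at h0
    exact h0
  obtain ⟨b, hb⟩ := G.res_A ⟨c₀, hc₀O⟩ hc₀
  have hFc₀ : coeffMap (frobenius k p) (G.res ⟨c₀, hc₀O⟩) = G.res ⟨c₀, hc₀O⟩ ^ p := by
    rw [hb, ← map_pow]
    show coeffMap (frobenius k p) (HahnSeries.single 0 b) = HahnSeries.single 0 (b ^ p)
    rw [coeffMap_single]
    rfl
  have h3 : G.res y = G.res ((⟨c₀, hc₀O⟩ : D.O) * γ₂ ^ p) := by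
    apply hFinj
    rw [h1, map_mul, map_mul, map_pow, map_pow, hFc₀, hres0, hγ₂]
  have hdvd : D.Dvd 1 ((y : F) - c₀ * (γ₂ : F) ^ p) := by
    have h0 : G.res (y - (⟨c₀, hc₀O⟩ : D.O) * γ₂ ^ p) = 0 := by
      rw [map_sub, h3, sub_self]
    rw [G.res_eq_zero] at h0
    exact h0
  -- units
  have hc₁res : G.res ⟨c₁, hc₁O⟩ ≠ 0 := by
    intro h0
    rw [h0, zero_mul] at h1
    exact hFy h1
  have hc₀res : G.res ⟨c₀, hc₀O⟩ ≠ 0 := by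
    intro h0
    rw [h0, zero_pow hp.ne_zero] at hres0
    exact hc₁res hres0.symm
  have ht₀res : G.res t₀ ≠ 0 := by
    intro h0
    rw [h0, zero_pow hp.ne_zero, mul_zero] at h1
    exact hFy h1
  have hγ₂res : G.res γ₂ ≠ 0 := by
    intro h0
    rw [h0, map_zero] at hγ₂
    exact ht₀res hγ₂.symm
  have hc₀inv : c₀⁻¹ ∈ D.O := Gen.inv_mem_of_res_ne_zero ⟨c₀, hc₀O⟩ hc₀res
  have hγ₂inv : (γ₂ : F)⁻¹ ∈ D.O := Gen.inv_mem_of_res_ne_zero γ₂ hγ₂res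
  have hc₀F : c₀ ≠ 0 := L0.ne_zero_of_res_ne_zero ⟨c₀, hc₀O⟩ hc₀res
  have hγ₂F : (γ₂ : F) ≠ 0 := L0.ne_zero_of_res_ne_zero γ₂ hγ₂res
  have hc₀K : c₀ ∈ G.Kc := ((G.mem_A _).1 hc₀).1
  refine ⟨c₀⁻¹ * (γ₂ : F)⁻¹ ^ p * (y : F), hry.trans ⟨c₀⁻¹, G.Kc.inv_mem hc₀K, (γ₂ : F)⁻¹,
    inv_ne_zero hc₀F, inv_ne_zero hγ₂F, rfl⟩, ?_⟩
  have e2 : c₀⁻¹ * (γ₂ : F)⁻¹ ^ p * (y : F) - 1 =
      ((y : F) - c₀ * (γ₂ : F) ^ p) * (c₀⁻¹ * (γ₂ : F)⁻¹ ^ p) := by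
    rw [inv_pow]
    field_simp
  rw [e2]
  exact hdvd.mul_right (D.O.mul_mem hc₀inv (D.O.pow_mem hγ₂inv p))

end Fermat.Agent.S33.Depth
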