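/-
S33 / Depth.  TASK DEPTH-7: **Lemma L2.**  Absolute ramification `e = p - 1`: a class of depth `≥ 1`
killed by `T_p` has depth `> p = p e / (p - 1)`.
-/
import Fermat.Agent.S33.Depth.L1

set_option autoImplicit false

namespace Fermat.Agent.S33.Depth

open Fermat.Agent.S33.Cech Fermat.Agent.S33.Cech.Data ModularCurve

variable {p : ℕ} [Fact p.Prime] {F : Type*} [Field F] {D : Data p F} {k : Type*} [Field k]
  [CharP k p] {G : Gen D k} {T : F →* F}

/-- Depth prime to `p`.  `u ~ u₁ = 1 + π ^ m h`, `T u₁ = 1 + π ^ m h'`, `res h' = (res h)(q ^ p)`,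
`1 = 1 + π ^ m 0 ~ T u ~ T u₁`; `lead_const_res` (with `h = 0`): `res h'` is constant;
`eq_C_of_qExpand_eq_C`: `res h` is constant; `G.res_const`, `improve_const`. -/
theorem L2a (hT : G.Op T) {j0 : ℕ} (hj0 : (p - 1) * j0 = D.e) {m : ℕ} (hm1 : 1 ≤ m)
    (hpm : ¬ p ∣ m) (hm : m < p * j0) {u : F} (htriv : G.Rel 1 (T u)) (hu : G.HasDepth u m) :
    G.HasDepth u (m + 1) := by
  obtain ⟨h, hrel⟩ := Gen.hasDepth_iff.1 hu
  obtain ⟨h', hTu, hres⟩ := hT.star m hm1 h
  have h1 : G.Rel (1 + D.π ^ m * ((0 : D.O) : F)) (1 + D.π ^ m * (h' : F)) := by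
    rw [← hTu]
    simpa using htriv.trans (Gen.Rel.map hT hrel)
  obtain ⟨c, hc⟩ := lead_const_res hj0 hm1 hpm hm (0 : D.O) h' h1
  rw [map_zero, sub_zero, hres] at hc
  have h2 := eq_C_of_qExpand_eq_C p hc
  obtain ⟨c', hc', hd⟩ := G.res_const h ⟨c, h2⟩
  exact Gen.HasDepth.of_rel hrel.symm (improve_const hm1 h.2 hc' hd)

/-- The computation in the residue field for the critical depth.  `V = qExpand k p`.
Given `V H = f ^ p + η f + d` (`η ≠ 0`, `d` constants), `γ ^ p = V H`, `V W = (γ - f) ^ p`: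
then `(γ - f) ^ p = η f + d` (characteristic `p`, `sub_pow_char`), so
`f = V f₁`, `f₁ = η⁻¹ (W - d)`, and `V H = V (f₁ ^ p + η f₁ + d)`; `V` is injective. -/
theorem as_descend {H f γ W : LaurentSeries k} {η d : k} (hη : η ≠ 0)
    (h1 : qExpand k p H = f ^ p + HahnSeries.C η * f + HahnSeries.C d)
    (h2 : γ ^ p = qExpand k p H) (h3 : qExpand k p W = (γ - f) ^ p) :
    H = (HahnSeries.C η⁻¹ * (W - HahnSeries.C d)) ^ p
      + HahnSeries.C η * (HahnSeries.C η⁻¹ * (W - HahnSeries.C d)) + HahnSeries.C d := by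
  have : CharP (LaurentSeries k) p :=
    charP_of_injective_ringHom (f := (HahnSeries.C : k →+* LaurentSeries k))
      HahnSeries.C_injective p
  have h4 : qExpand k p W = HahnSeries.C η * f + HahnSeries.C d := by
    rw [h3, sub_pow_char, h2, h1]
    ring
  have hCC : (HahnSeries.C η⁻¹ : LaurentSeries k) * HahnSeries.C η = 1 := by
    rw [← map_mul, inv_mul_cancel₀ hη, map_one]
  have h5 : f = qExpand k p (HahnSeries.C η⁻¹ * (W - HahnSeries.C d)) := by
    rw [map_mul, map_sub, qExpand_C, qExpand_C, h4, add_sub_cancel_right, ← mul_assoc, hCC,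
      one_mul]
  apply qExpand_injective p
  generalize HahnSeries.C η⁻¹ * (W - HahnSeries.C d) = f₁ at h5 ⊢
  rw [h1, map_add, map_add, map_pow, map_mul, qExpand_C, qExpand_C, ← h5]

/-- Critical depth.  `u ~ 1 + π ^ (p j0) h`, `T (..) = 1 + π ^ (p j0) h'`, `lead_as` (with `h = 0`):
`h' ≡ f ^ p + η f + d`.  `RootStable` gives `γ`, `FrobStable` applied to `γ - f` gives `W`;
`as_descend` with `η := ` the constant `res η` (`G.res_A`; it is `≠ 0` because `η⁻¹ ∈ A`);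
`f₁ := η⁻¹ (W - d) ∈ O`; `G.res_eq_zero` gives `Dvd 1 (h - (f₁ ^ p + η f₁) - d)`; `improve_as`. -/
theorem L2c (hp2 : p ≠ 2) (hT : G.Op T) (hroot : G.RootStable) (hfrob : G.FrobStable) {j0 : ℕ}
    (hj1 : 1 ≤ j0) (hj0 : (p - 1) * j0 = D.e) {u : F} (htriv : G.Rel 1 (T u))
    (hu : G.HasDepth u (p * j0)) : G.HasDepth u (p * j0 + 1) := by
  have hp : p.Prime := Fact.out
  have hm1 : 1 ≤ p * j0 := Nat.mul_pos hp.pos hj1
  obtain ⟨h, hrel⟩ := Gen.hasDepth_iff.1 hu
  obtain ⟨h', hTu, hres⟩ := hT.star (p * j0) hm1 h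
  have h1 : G.Rel (1 + D.π ^ (p * j0) * (0 : F)) (1 + D.π ^ (p * j0) * (h' : F)) := by
    rw [← hTu]
    simpa using htriv.trans (Gen.Rel.map hT hrel)
  obtain ⟨f, hf, d, hd, hdvd⟩ := lead_as hj1 hj0 D.O.zero_mem h'.2 h1
  -- elements of `O`
  let fO : D.O := ⟨f, hf⟩
  let dO : D.O := ⟨d, A_leO hd⟩
  let ηO : D.O := ⟨D.η, A_leO D.η_mem⟩
  let ηi : D.O := ⟨D.η⁻¹, A_leO D.η_inv⟩
  obtain ⟨ηb, hηb⟩ := G.res_A ηO D.η_mem
  obtain ⟨db, hdb⟩ := G.res_A dO hd
  have hηη : ηi * ηO = 1 := Subtype.ext (inv_mul_cancel₀ D.η_ne)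
  have hηη' : G.res ηi * HahnSeries.C ηb = 1 := by rw [← hηb, ← map_mul, hηη, map_one]
  have hηb0 : ηb ≠ 0 := by
    rintro rfl
    rw [map_zero, mul_zero] at hηη'
    exact zero_ne_one hηη'
  have hηi : G.res ηi = HahnSeries.C ηb⁻¹ := by
    have hCC : (HahnSeries.C ηb : LaurentSeries k) * HahnSeries.C ηb⁻¹ = 1 := by
      rw [← map_mul, mul_inv_cancel₀ hηb0, map_one]
    calc G.res ηi = G.res ηi * (HahnSeries.C ηb * HahnSeries.C ηb⁻¹) := by rw [hCC, mul_one]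
      _ = HahnSeries.C ηb⁻¹ := by rw [← mul_assoc, hηη', one_mul]
  -- the congruence for `h'` on reductions
  have e1 : G.res (h' - (fO ^ p + ηO * fO) - dO) = 0 := by
    rw [G.res_eq_zero]
    simpa [fO, dO, ηO] using hdvd
  have e2 : qExpand k p (G.res h) =
      G.res fO ^ p + HahnSeries.C ηb * G.res fO + HahnSeries.C db := by
    rw [← hres, ← hηb, ← hdb]
    simp only [map_sub, map_add, map_mul, map_pow] at e1
    linear_combination e1
  obtain ⟨γ, hγ⟩ := hroot h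
  obtain ⟨W, hW⟩ := hfrob (γ - fO)
  rw [map_sub] at hW
  have e3 := as_descend hηb0 e2 hγ hW
  -- the new `f`
  let f₁ : D.O := ηi * (W - dO)
  have e4 : G.res (h - (f₁ ^ p + ηO * f₁) - dO) = 0 := by
    simp only [f₁, map_sub, map_add, map_mul, map_pow, hηi, hηb, hdb]
    rw [e3]
    ring
  rw [G.res_eq_zero] at e4
  have e5 : D.Dvd 1 ((h : F) - ((f₁ : F) ^ p + D.η * (f₁ : F)) - d) := by
    simpa [dO, ηO] using e4
  exact Gen.HasDepth.of_rel hrel.symm (improve_as hp2 hj1 hj0 h.2 f₁.2 hd e5)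

/-- **Lemma L2.**  Induction `m = 1, …, p - 1` with `L2a` (`j0 = 1`), then `L2c`. -/
theorem L2 (hp2 : p ≠ 2) (hT : G.Op T) (hroot : G.RootStable) (hfrob : G.FrobStable)
    (he : D.e = p - 1) {u : F} (htriv : G.Rel 1 (T u)) (h1 : G.HasDepth u 1) :
    G.HasDepth u (p + 1) := by
  have hp : p.Prime := Fact.out
  have hj0 : (p - 1) * 1 = D.e := by rw [mul_one, he]
  have key : ∀ m : ℕ, 1 ≤ m → m ≤ p → G.HasDepth u m := by
    intro m hm1
    induction m, hm1 using Nat.le_induction with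
    | base => exact fun _ => h1
    | succ m hm1 ih =>
      intro hmp
      refine L2a hT hj0 hm1 (fun hdvd => ?_) (by omega) htriv (ih (by omega))
      have := Nat.le_of_dvd (by omega) hdvd
      omega
  have h2 : G.HasDepth u (p * 1) := by
    rw [mul_one]
    exact key p hp.one_lt.le le_rfl
  have h3 := L2c hp2 hT hroot hfrob le_rfl hj0 htriv h2
  rwa [mul_one] at h3

end Fermat.Agent.S33.Depth
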