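/-
S33 / Depth.  TASK DEPTH-8: **Lemma L3 (generic part).**  A class of depth `≥ 1` which is periodic
under `U_p` is arbitrarily deep.
-/
import Fermat.Agent.S33.Depth.Rel

set_option autoImplicit false

namespace Fermat.Agent.S33.Depth

open Fermat.Agent.S33.Cech Fermat.Agent.S33.Cech.Data ModularCurve

variable {p : ℕ} {F : Type*} [Field F] {D : Data p F} {k : Type*} [Field k]
  {G : Gen D k} {U : F →* F}

private theorem L3.map_ne_zero (U : F →* F) {c : F} (hc : c ≠ 0) : U c ≠ 0 := by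
  intro h0
  have h1 : U c * U c⁻¹ = 1 := by rw [← map_mul, mul_inv_cancel₀ hc, map_one]
  rw [h0, zero_mul] at h1
  exact zero_ne_one h1

theorem Gen.Rel.mapU (hU : G.OpU U) {u u' : F} (h : G.Rel u u') : G.Rel (U u) (U u') := by
  obtain ⟨c, hc, g, hc0, hg0, rfl⟩ := h
  refine ⟨U c, hU.const c hc, U g, L3.map_ne_zero U hc0, L3.map_ne_zero U hg0, ?_⟩
  rw [map_mul, map_mul, map_pow]

/-- `U` increases the depth (`hasDepth_iff`, `Gen.Rel.mapU`, `hU.star`). -/
theorem hasDepth_U (hU : G.OpU U) {u : F} {m : ℕ} (hm : 1 ≤ m) (hu : G.HasDepth u m) :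
    G.HasDepth (U u) (m + 1) := by
  obtain ⟨h, hh⟩ := Gen.hasDepth_iff.1 hu
  obtain ⟨h', hh'⟩ := hU.star m hm h
  refine Gen.hasDepth_iff.2 ⟨h', ?_⟩
  rw [← hh']
  exact hh.mapU hU

theorem hasDepth_U_iterate (hU : G.OpU U) {u : F} {m : ℕ} (hm : 1 ≤ m) (hu : G.HasDepth u m)
    (r : ℕ) : G.HasDepth (U^[r] u) (m + r) := by
  induction r with
  | zero => exact hu
  | succ r ih =>
    rw [Function.iterate_succ_apply', ← add_assoc]
    exact hasDepth_U hU (by omega) ih

/-- **L3.**  Induction on `m`. -/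
theorem L3 (hU : G.OpU U) {u : F} {r : ℕ} (hr : 1 ≤ r) (hper : G.Rel u (U^[r] u))
    (h1 : G.HasDepth u 1) : ∀ m : ℕ, G.HasDepth u m := by
  have key : ∀ m : ℕ, G.HasDepth u (m + 1) := by
    intro m
    induction m with
    | zero => exact h1
    | succ m ih =>
      have h2 := hasDepth_U_iterate hU (by omega) ih r
      exact (h2.mono (by omega)).of_rel hper.symm
  intro m
  exact (key m).mono (by omega)

end Fermat.Agent.S33.Depth
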